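import Fermat.Prelude.Def_ModularCurve_HeckeModule
import Fermat.Prelude.Def_ModularCurve_ReductionModL
import Fermat.Prelude.Def_CuspForm_HeckeEvalForms
import Fermat.Prelude.Def_CuspForm_HeckeLocal

/-!
# Interfaces of the proof of Mazur's theorem

* `RankZeroElement N`: some non-zero Hecke operator makes every rational point of `J₀(N)` torsion
  (the output of the Eisenstein descent, the input of the formal immersion argument).
* `FixedTorsionRedInjective N q`: reduction modulo `q` is injective on rational torsion.
-/

set_option autoImplicit false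

noncomputable section

open AlgebraicCurve ModularCurve

namespace Fermat.Agent.Mazur

variable (N : ℕ) [NeZero N]

/-- The action of the formal Hecke algebra on integral cusp forms. -/
def latticeEval : HeckeAlg →+* ↥(CuspForm.heckeLatticeAlgebra N ∅) :=
  (CuspForm.latticeRestrictHom N ∅).toRingHom.comp (CuspForm.heckeEvalForms N 2)

/-- Some operator, non-zero on cusp forms, makes all rational points torsion. -/
def RankZeroElement : Prop :=
  letI := heckeModuleBar N
  ∃ t : HeckeAlg, latticeEval N t ≠ 0 ∧ ∀ x : JZero N,
    (∀ σ : AlgebraicClosure ℚ ≃ₐ[ℚ] AlgebraicClosure ℚ, σ • x = x) →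
      ∃ m : ℕ, 0 < m ∧ m • (t • x) = 0

/-- Reduction modulo `q` is injective on rational torsion points. -/
def FixedTorsionRedInjective (q : ℕ) : Prop :=
  ∀ A : ValuationSubring (AlgebraicClosure ℚ), A.LiesOverPrime q → ∀ z : JZero N,
    (∀ σ : AlgebraicClosure ℚ ≃ₐ[ℚ] AlgebraicClosure ℚ, σ • z = z) →
      (∃ m : ℕ, 0 < m ∧ m • z = 0) → reductionModL A N z = 0 → z = 0

end Fermat.Agent.Mazur
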