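import Fermat.Agent.Mazur.Descent.OddLevel
import Fermat.Agent.MW.JZeroFG
import Fermat.Agent.MW.InertiaInvariance
import Fermat.Agent.RED.X0LiftAll
import Fermat.Agent.RED.TorsionModular
import Fermat.Agent.RED.Specialization.Main

/-!
# The points of `J₀(p)` in the descent

Reduction at the good primes of `J₀(p)`: Galois equivariance, the congruence relation, injectivity
on prime-to-residue-characteristic torsion; hence the setting of the descent and finite generation.
-/

set_option autoImplicit false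
set_option linter.style.haveILetI false

noncomputable section

open ModularCurve AlgebraicCurve

namespace Fermat.Agent.Mazur

open Fermat.Agent.FlatTangent

variable (p : Nat.Primes) [NeZero (p : ℕ)]

/-- The kernel of reduction at the chosen place over `ℓ`. -/
def redKer (ℓ : ℕ) [Fact ℓ.Prime] : AddSubgroup (JZero (p : ℕ)) :=
  (reductionModL (plc ℓ) (p : ℕ)).ker

variable {p}

theorem mem_redKer {ℓ : ℕ} [Fact ℓ.Prime] {x : JZero (p : ℕ)} :
    x ∈ redKer p ℓ ↔ reductionModL (plc ℓ) (p : ℕ) x = 0 := Iff.rfl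

omit [NeZero (p : ℕ)] in
theorem not_dvd_level {q : ℕ} (hq : q.Prime) (hne : q ≠ p) : ¬ q ∣ (p : ℕ) :=
  fun h => hne ((Nat.prime_dvd_prime_iff_eq hq p.2).mp h)

/-- Reduction at a good prime is injective on torsion prime to it. -/
theorem eq_zero_of_red {q : ℕ} (hq : q.Prime) (hqp : q ≠ p) {A : ValuationSubring Qb}
    (hA : A.LiesOverPrime q) {m : ℕ} (hm : ¬ q ∣ m) {z : JZero (p : ℕ)} (hmz : m • z = 0)
    (hz : reductionModL A (p : ℕ) z = 0) : z = 0 :=
  RED.eq_zero_of_reductionModL_eq_zero hq (not_dvd_level hq hqp) hA (RED.x0Lift _ _ _)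
    (RED.reductionInputsModL hq (not_dvd_level hq hqp) hA (RED.x0Lift _ _ _)) hm z hmz hz

theorem red_inertia {A : ValuationSubring Qb} {σ : Gal} (hσ : σ ∈ A.inertiaSubgroupIn ℚ)
    (x : JZero (p : ℕ)) : reductionModL A (p : ℕ) (σ • x) = reductionModL A (p : ℕ) x :=
  MW.reductionModL_inertia_smul (fun _ hn z => MW.exists_nsmul_eq_jzero _ hn z) hσ x

/-- The rational points are finitely generated. -/
theorem fg_points (p : Nat.Primes) [NeZero (p : ℕ)] :
    AddGroup.FG ↥(FixedPoints.addSubgroup Gal (JZero (p : ℕ))) :=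
  MW.fg_fixedPoints_jzero _

/-- The hypotheses of the descent on the points. -/
theorem pointSetting (ℓ : ℕ) [hℓ : Fact ℓ.Prime] :
    Descent.PointSetting (JZero (p : ℕ)) ℓ p (redKer p ℓ : Set (JZero (p : ℕ))) where
  divisible R x := MW.exists_nsmul_eq_jzero _ (pow_ne_zero R hℓ.out.ne_zero) x
  level y := by
    haveI : FF.IsFunctionField (AlgebraicClosure ℚ) (modularFunctionFieldBar (p : ℕ)) :=
      MF.Coeff.isFunctionField_laurentBaseChange _ _
    obtain ⟨E, hE, hEy⟩ := MW.jzero_fixed_level MW.exists_unique_pole y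
    exact ⟨E, hE, fun σ hσ => hEy σ ((IntermediateField.mem_fixingSubgroup_iff _ _).mp hσ)⟩
  red_inert σ hσ y := by
    show reductionModL (plc ℓ) (p : ℕ) (σ • y - y) = 0
    rw [map_sub, red_inertia hσ, sub_self]
  unr R y hy q hqℓ hqp σ hσ := by
    haveI : Fact (q : ℕ).Prime := ⟨q.2⟩
    exact MW.inertia_fix_of_reduction (reductionModL (plc (q : ℕ)) (p : ℕ))
      (fun x => red_inertia hσ x)
      (fun t ht htz => eq_zero_of_red q.2 (fun h => hqp (Subtype.ext h))
        (plc_liesOverPrime _)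
        (fun h => hqℓ ((Nat.prime_dvd_prime_iff_eq q.2 hℓ.out).mp (q.2.dvd_of_dvd_pow h))) ht htz)
      hy

/-- The congruence relation on the reduction at `ℓ`. -/
theorem frob_quad_mem_redKer {ℓ : ℕ} [hℓ : Fact ℓ.Prime] (hℓp : ℓ ≠ p) {σ : Gal}
    (hσ : (plc ℓ).IsFrobeniusAt σ ℓ) (x : JZero (p : ℕ)) :
    σ • σ • x - heckeOperatorBar (p : ℕ) ⟨ℓ, hℓ.out⟩ (σ • x) + ℓ • x ∈ redKer p ℓ := by
  show reductionModL (plc ℓ) (p : ℕ) _ = 0
  rw [map_add, map_sub, map_nsmul]
  exact RED.Spec.reductionModL_frobenius_quadratic hℓ.out (not_dvd_level hℓ.out hℓp)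
    (plc_liesOverPrime ℓ) (RED.x0Lift _ _ _) σ hσ x

end Fermat.Agent.Mazur
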