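import Fermat.Agent.Mazur.Descent.RankZero
import Fermat.Agent.HK.TateFinal
import Fermat.Agent.MF.IntStruct.Main

/-!
# The Hecke action on torsion points only depends on the action on cusp forms
-/

set_option autoImplicit false

noncomputable section

open ModularCurve

namespace Fermat.Agent.Mazur

variable {N : ℕ} [NeZero N]

/-- Operators with the same lattice action are equal on cusp forms. -/
theorem heckeEvalForms_eq_of_latticeEval_eq {t t' : HeckeAlg}
    (h : latticeEval N t = latticeEval N t') :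
    CuspForm.heckeEvalForms N 2 t = CuspForm.heckeEvalForms N 2 t' :=
  (CuspForm.latticeRestrictHom_bijective N ∅ (MF.IntStruct.hasIntegralStructure N 2)).1 h

/-- On torsion of prime power order the action factors through the lattice. -/
theorem heckeOp_of_latticeEval_eq_of_pow {ℓ : ℕ} [Fact ℓ.Prime] {R : ℕ} {x : JZero N}
    (hx : ℓ ^ R • x = 0) (t t' : HeckeAlg) (h : latticeEval N t = latticeEval N t') :
    heckeOp N t x = heckeOp N t' x := by
  have hc := HK.Corr.heckeOperatorsCommuteBar N
  have e : ∀ u : HeckeAlg, heckeOp N u x = heckeEvalBar hc u x := fun u => by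
    rw [heckeOp_apply, heckeModuleBar_smul_def hc]
  rw [e, e]
  have hz : x ∈ HK.jTor N ℓ R := hx
  have key := (HK.tateCoords N ℓ).e_heckeEvalBar hc t R ⟨x, hz⟩
  rw [heckeEvalForms_eq_of_latticeEval_eq h,
    ← (HK.tateCoords N ℓ).e_heckeEvalBar hc t' R ⟨x, hz⟩] at key
  exact congrArg Subtype.val (((HK.tateCoords N ℓ).e R).injective key)

/-- On torsion points the action factors through the lattice. -/
theorem heckeOp_of_latticeEval_eq {n : ℕ} (hn : 0 < n) {x : JZero N} (hx : n • x = 0)
    (t t' : HeckeAlg) (h : latticeEval N t = latticeEval N t') :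
    heckeOp N t x = heckeOp N t' x := by
  induction n using Nat.recOnPrimeCoprime generalizing x with
  | zero => exact absurd hn (lt_irrefl 0)
  | prime_pow ℓ R hℓ =>
    have : Fact ℓ.Prime := ⟨hℓ⟩
    exact heckeOp_of_latticeEval_eq_of_pow hx t t' h
  | coprime a b ha hb hab iha ihb =>
    obtain ⟨u, v, huv⟩ := (Int.isCoprime_iff_nat_coprime.mpr
      (by simpa using hab) : IsCoprime (a : ℤ) (b : ℤ))
    have h1 := iha (by omega) (x := b • x) (by rw [← mul_smul, hx])
    have h2 := ihb (by omega) (x := a • x) (by rw [← mul_smul, mul_comm, hx])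
    have e : x = u • (a • x) + v • (b • x) := by
      rw [← natCast_zsmul, ← natCast_zsmul, ← mul_zsmul', ← mul_zsmul', mul_comm (a : ℤ) u,
        mul_comm (b : ℤ) v, ← add_zsmul, huv, one_zsmul]
    rw [e, map_add, map_add, map_zsmul (heckeOp N t), map_zsmul (heckeOp N t),
      map_zsmul (heckeOp N t'), map_zsmul (heckeOp N t'), h1, h2]

/-- The formal Hecke algebra maps onto the Hecke algebra of cusp forms. -/
theorem heckeEvalForms_surjective : Function.Surjective (CuspForm.heckeEvalForms N 2) := by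
  rintro ⟨t, ht⟩
  induction ht using Algebra.adjoin_induction with
  | mem x hx =>
    rcases hx with ⟨l, hl, hlN, -, rfl⟩ | ⟨q, hqN, hq, -, rfl⟩
    · exact ⟨heckeGen ⟨l, hl⟩, CuspForm.heckeEvalForms_heckeGen_of_not_dvd (ℓ := ⟨l, hl⟩) hlN⟩
    · exact ⟨heckeGen ⟨q, hq⟩, CuspForm.heckeEvalForms_heckeGen_of_dvd (q := ⟨q, hq⟩) hqN⟩
  | algebraMap a => exact ⟨MvPolynomial.C a, CuspForm.heckeEvalForms_C _ _ a⟩
  | add x y _ _ hx hy =>
    obtain ⟨a, ha⟩ := hx
    obtain ⟨b, hb⟩ := hy
    exact ⟨a + b, by rw [map_add, ha, hb]; rfl⟩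
  | mul x y _ _ hx hy =>
    obtain ⟨a, ha⟩ := hx
    obtain ⟨b, hb⟩ := hy
    exact ⟨a * b, by rw [map_mul, ha, hb]; rfl⟩

/-- An operator divisible by `m` on cusp forms is divisible by `m` on torsion points. -/
theorem exists_heckeOp_eq_nsmul {t : HeckeAlg} {m : ℕ}
    {s : ↥(CuspForm.heckeLatticeAlgebra N ∅)} (h : latticeEval N t = m • s) :
    ∃ s' : HeckeAlg, ∀ {n : ℕ}, 0 < n → ∀ {x : JZero N}, n • x = 0 →
      heckeOp N t x = m • heckeOp N s' x := by
  obtain ⟨s', hs⟩ := (CuspForm.latticeRestrictHom_surjective N ∅).comp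
    heckeEvalForms_surjective s
  refine ⟨s', fun {n} hn {x} hx => ?_⟩
  letI := heckeModuleBar N
  rw [heckeOp_of_latticeEval_eq hn hx t (m • s') (by rw [map_nsmul, h, ← hs]; rfl), heckeOp_apply,
    heckeOp_apply, smul_assoc]

end Fermat.Agent.Mazur
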