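import Fermat.Agent.Mazur.Component.Exists
import Fermat.Agent.Mazur.Component.Unip
import Fermat.Agent.Mazur.Odd.OfComponent

/-!
# The rank zero elements at prime level

`J₀(p)` has a rank zero element at an odd prime dividing the numerator of `(p - 1) / 12`, and
that numerator has an odd prime factor unless it is a power of two, then divisible by four.
-/

set_option autoImplicit false
set_option linter.style.haveILetI false

noncomputable section

open ModularCurve

namespace Fermat.Agent.Mazur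

theorem lt_of_dvd_eisensteinNumerator {p ℓ : ℕ} (hp : p.Prime) (h : ℓ ∣ eisensteinNumerator p) :
    ℓ < p := by
  have h2 := hp.two_le
  have hd : eisensteinNumerator p ∣ p - 1 := by
    rw [eisensteinNumerator]
    exact Nat.div_dvd_of_dvd (Nat.gcd_dvd_left _ _)
  have := Nat.le_of_dvd (by omega) (h.trans hd)
  omega

/-- The rank zero element at an odd Eisenstein prime. -/
theorem rankZeroElement_odd {p : ℕ} [NeZero p] (hp : p.Prime) {ℓ : ℕ} (hℓ : ℓ.Prime) (hℓ2 : ℓ ≠ 2)
    (hℓn : ℓ ∣ eisensteinNumerator p)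
    (hconn : ∀ [Fact ℓ.Prime], haveI : NeZero ((⟨p, hp⟩ : Nat.Primes) : ℕ) := ⟨hp.ne_zero⟩
      RedConnFacts ⟨p, hp⟩ ℓ) :
    RankZeroElement p := by
  haveI : Fact p.Prime := ⟨hp⟩
  haveI : Fact ℓ.Prime := ⟨hℓ⟩
  haveI : NeZero ((⟨p, hp⟩ : Nat.Primes) : ℕ) := ⟨hp.ne_zero⟩
  have hℓp : ℓ ≠ p := (lt_of_dvd_eisensteinNumerator hp hℓn).ne
  obtain ⟨X⟩ := Component.exists_component_prime' p hℓn
  exact Component.rankZeroElement (p := ⟨p, hp⟩) X hℓ2 hℓp hconn
    fun R x hx σ hσ => inertP_sub_sq ⟨p, hp⟩ hℓ hℓp hx hσ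

end Fermat.Agent.Mazur
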