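import Fermat.Agent.Mazur.RankZero
import Fermat.Agent.Mazur.Two.RankZero

/-!
# The rank zero element at every prime level outside the exceptional set
-/

set_option autoImplicit false

noncomputable section

open ModularCurve

namespace Fermat.Agent.Mazur

/-- Outside `{2, 3, 5, 7, 13}` the Eisenstein numerator has an odd prime factor or is divisible
by four. -/
theorem exists_odd_prime_or_four_dvd {p : ℕ} (hp : p.Prime)
    (hp' : p ∉ ({2, 3, 5, 7, 13} : Finset ℕ)) :
    (∃ ℓ, ℓ.Prime ∧ ℓ ≠ 2 ∧ ℓ ∣ eisensteinNumerator p) ∨ 4 ∣ eisensteinNumerator p := by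
  set n := eisensteinNumerator p with hn
  set g := Nat.gcd (p - 1) 12 with hg
  have h2 := hp.two_le
  have hmul : n * g = p - 1 := Nat.div_mul_cancel (Nat.gcd_dvd_left _ _)
  have hn0 : n ≠ 0 := fun h => by rw [h, zero_mul] at hmul; omega
  by_contra hcon
  rw [not_or, not_exists] at hcon
  obtain ⟨hodd, h4⟩ := hcon
  have hpow : n = 2 ^ n.factorization 2 := by
    refine Nat.eq_pow_of_factorization_eq_single hn0 (Finsupp.ext fun ℓ => ?_)
    rcases eq_or_ne ℓ 2 with rfl | hℓ
    · rw [Finsupp.single_eq_same]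
    · rw [Finsupp.single_eq_of_ne hℓ]
      by_cases hl : ℓ.Prime
      · exact Nat.factorization_eq_zero_of_not_dvd fun h => hodd ℓ ⟨hl, hℓ, h⟩
      · exact Nat.factorization_eq_zero_of_not_prime n hl
  have hlt : n.factorization 2 < 2 := by
    by_contra h
    exact h4 (hpow ▸ pow_dvd_pow 2 (not_lt.mp h))
  have hn2 : n = 1 ∨ n = 2 := by
    rcases Nat.lt_succ_iff.mp hlt |>.eq_or_lt with h | h
    · right; rw [hpow, h]; rfl
    · left; rw [hpow, Nat.lt_one_iff.mp h]; rfl
  have hg12 : g ∣ 12 := Nat.gcd_dvd_right _ _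
  have hgle : g ≤ 12 := Nat.le_of_dvd (by norm_num) hg12
  have hp25 : p ≤ 25 := by rcases hn2 with h | h <;> rw [h] at hmul <;> omega
  simp only [Finset.mem_insert, Finset.mem_singleton, not_or] at hp'
  rw [hg] at hmul
  rcases hn2 with h | h <;> rw [h] at hmul <;> interval_cases p <;>
    (revert hp hp' hmul; norm_num)

/-- The rank zero element at every prime level outside the exceptional set. -/
theorem rankZeroElement_prime {p : ℕ} [NeZero p] (hp : p.Prime)
    (hp' : p ∉ ({2, 3, 5, 7, 13} : Finset ℕ))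
    (hconn : ∀ {ℓ : ℕ} [Fact ℓ.Prime], ℓ ≠ 2 →
      haveI : NeZero ((⟨p, hp⟩ : Nat.Primes) : ℕ) := ⟨hp.ne_zero⟩
      RedConnFacts ⟨p, hp⟩ ℓ)
    (hcusp : 4 ∣ eisensteinNumerator p → CuspClassTwo p) : RankZeroElement p := by
  rcases exists_odd_prime_or_four_dvd hp hp' with ⟨ℓ, hℓ, hℓ2, hℓn⟩ | h4
  · exact rankZeroElement_odd hp hℓ hℓ2 hℓn (hconn hℓ2)
  · exact rankZeroElement_two hp (fun h => hp' (by simp [h])) (hcusp h4)

end Fermat.Agent.Mazur
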