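import Fermat.Agent.Mazur.RankZeroAll
import Fermat.Agent.Mazur.Component.RedConn

/-!
# The rank zero element at prime level

Given the rational class at two, every prime outside the exceptional set has a rank zero element.
-/

set_option autoImplicit false

noncomputable section

open ModularCurve

namespace Fermat.Agent.Mazur

/-- The rank zero element, given the class of two-power order at two. -/
theorem rankZeroElement_of_cusp {p : ℕ} [NeZero p] (hp : p.Prime)
    (hp' : p ∉ ({2, 3, 5, 7, 13} : Finset ℕ))
    (hcusp : 4 ∣ eisensteinNumerator p → CuspClassTwo p) : RankZeroElement p := by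
  rcases exists_odd_prime_or_four_dvd hp hp' with ⟨ℓ, hℓ, hℓ2, hℓn⟩ | h4
  · refine rankZeroElement_odd hp hℓ hℓ2 hℓn ?_
    intro _
    exact redConnFacts hℓ2 (lt_of_dvd_eisensteinNumerator hp hℓn).ne
  · exact rankZeroElement_two hp (fun h => hp' (by simp [h])) (hcusp h4)

end Fermat.Agent.Mazur
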