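import Fermat.Agent.Galois.PadicPlace
import Fermat.Agent.Mazur.Immersion.Main
import Fermat.Agent.Mazur.Moduli.Main
import Fermat.Prelude.Def_EllipticCurve_ZeroComponentAt

/-!
# Mazur's third step from the rank zero element

A rational point of prime order `p` of a curve with multiplicative reduction at `q`
gives a rational point of `X₀(p)` congruent to `∞` modulo `q`, which the formal immersion
forbids. So the hypotheses of the third step at `3` are contradictory by themselves.
-/

set_option autoImplicit false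

noncomputable section

namespace Fermat.Agent.Mazur

open WeierstrassCurve WeierstrassCurve.Affine.Point
open scoped WeierstrassCurve.Affine

/-- The inputs of the third step at level `p`. -/
def StepThreeInputs (p : ℕ) : Prop :=
  ∀ [Fact (Nat.Prime 3)] [NeZero p], RankZeroElement p ∧ FixedTorsionRedInjective p 3 ∧
    Immersion.HasReductionData p (padicPlace 3)

/-- At an odd prime `q` of multiplicative reduction a rational point of order `p` lies in the
identity component. -/
theorem inZeroComponentAt_of_rankZero {p : ℕ} [NeZero p] (hp : p.Prime) (hp5 : 5 ≤ p) {q : ℕ}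
    [Fact q.Prime] (hq : q ≠ 2) (hqp : q ≠ p) (hrk : RankZeroElement p)
    (hinj : FixedTorsionRedInjective p q) (hred : Immersion.HasReductionData p (padicPlace q))
    (W : WeierstrassCurve ℤ) (hΔ0 : W.Δ ≠ 0) (hΔ : (q : ℤ) ∣ W.Δ) (hc₄ : ¬ (q : ℤ) ∣ W.c₄)
    (Q : ((W.map (Int.castRingHom ℚ))⁄(AlgebraicClosure ℚ)).Point) (hQ : addOrderOf Q = p)
    (hfix : ∀ σ : AlgebraicClosure ℚ ≃ₐ[ℚ] AlgebraicClosure ℚ, σ • Q = Q) :
    W.InZeroComponentAt (padicPlace q) Q := by
  by_contra hcomp
  obtain ⟨P, s, hP, hs, hev⟩ := Moduli.exists_isEvalPlace_of_stable hp W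
    hΔ hΔ0 hc₄ Q hQ fun σ => ⟨1, by rw [hfix σ]; exact one_zsmul Q⟩
  exact Immersion.not_isEvalPlace_of_rankZero hq
    (fun h => hqp ((Nat.prime_dvd_prime_iff_eq Fact.out hp).mp h)) hrk hinj hred P hP hs hev

/-- The statement S15 from the inputs at level `p`. -/
theorem stepThree_of_inputs {p : ℕ} (hp : p.Prime) (hp' : p ∉ ({2, 3, 5, 7, 13} : Finset ℕ))
    (hin : StepThreeInputs p)
    (W : WeierstrassCurve ℤ) (hΔ : W.Δ ≠ 0)
    (Q : ((W.map (Int.castRingHom ℚ))⁄(AlgebraicClosure ℚ)).Point)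
    (hQfix : ∀ σ : AlgebraicClosure ℚ ≃ₐ[ℚ] AlgebraicClosure ℚ, σ • Q = Q)
    (hQord : addOrderOf Q = p) (h3Δ : (3 : ℤ) ∣ W.Δ) (h3c₄ : ¬ (3 : ℤ) ∣ W.c₄)
    (h3 : ∀ A : ValuationSubring (AlgebraicClosure ℚ), A.LiesOverPrime 3 →
      ¬ W.InZeroComponentAt A Q) : False := by
  have : Fact (Nat.Prime 3) := ⟨Nat.prime_three⟩
  have : NeZero p := ⟨hp.ne_zero⟩
  simp only [Finset.mem_insert, Finset.mem_singleton, not_or] at hp'
  obtain ⟨h2, h3', h5, -, -⟩ := hp'
  have hp5 : 5 ≤ p := by
    have h4 : p ≠ 4 := by rintro rfl; exact absurd hp (by norm_num)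
    have := hp.two_le
    omega
  obtain ⟨hrk, hinj, hred⟩ := hin
  exact h3 (padicPlace 3) (Galois.padicPlace_liesOverPrime 3)
    (inZeroComponentAt_of_rankZero hp hp5 (by norm_num) (Ne.symm h3') hrk hinj hred W hΔ h3Δ h3c₄
      Q hQord hQfix)

end Fermat.Agent.Mazur
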